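/-
P-MW block E, row 914 (MW-E-D-BASIC), helper65: elementary properties of the divisor of an ideal
of `RatRing F₀ t`.

* `idealDivisorExists : IdealDivisorExistsStatement`
* `idealDivisorUnique : IdealDivisorUniqueStatement`
* `idealDivisorMul : IdealDivisorMulStatement`
* `idealDivisorGalois : IdealDivisorGaloisStatement`
-/
import Mathlib
import Fermat.Agent.H23.MWE.Interfaces
import Fermat.Agent.H58.RR.CharZero

set_option autoImplicit false
set_option linter.style.haveILetI false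
set_option linter.unusedSectionVars false

noncomputable section

open ModularCurve AlgebraicCurve IntermediateField

namespace Fermat.Agent.H65.MWE

open Fermat.Agent.H92.MW (QQbar)
open Fermat.Agent.H23.MWE

variable (F₀ : IntermediateField ℚ (LaurentSeries ℚ)) (t : ↥F₀)

theorem mwed_toBar_ne_zero {f : ↥F₀} (hf : f ≠ 0) : toBar F₀ f ≠ 0 :=
  (map_ne_zero (toBar F₀)).mpr hf

theorem mwed_toBar_algebraMap (c : ℚ) :
    toBar F₀ (algebraMap ℚ ↥F₀ c) = algebraMap QQbar (FBar F₀) (algebraMap ℚ QQbar c) := by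
  rw [eq_ratCast, eq_ratCast, map_ratCast, map_ratCast]

/-- The elements of `RatRing F₀ t` are regular at the places where `t` is regular. -/
theorem mwed_regular (Q : Place QQbar (FBar F₀)) (hQ : 0 ≤ Q.ord (toBar F₀ t))
    (f : RatRing F₀ t) : 0 ≤ Q.ord (toBar F₀ (f : ↥F₀)) := by
  let S : Subalgebra ℚ ↥F₀ :=
    { (Q.toValuationSubring.toSubring.comap (toBar F₀)).toSubsemiring with
      algebraMap_mem' := fun c => by
        show toBar F₀ (algebraMap ℚ ↥F₀ c) ∈ Q.toValuationSubring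
        rw [mwed_toBar_algebraMap]
        exact Q.algebraMap_mem' _ }
  have hle : Algebra.adjoin ℚ ({t} : Set ↥F₀) ≤ S := by
    apply Algebra.adjoin_le
    rintro x hx
    rw [Set.mem_singleton_iff] at hx
    subst hx
    exact Fermat.Agent.H23.mem_of_ord_nonneg Q hQ
  let ψ : ↥(Algebra.adjoin ℚ ({t} : Set ↥F₀)) →+* ↥Q.toValuationSubring :=
    { toFun := fun x => ⟨toBar F₀ (x : ↥F₀), hle x.2⟩
      map_one' := Subtype.ext (map_one (toBar F₀))
      map_mul' := fun x y => Subtype.ext (map_mul (toBar F₀) _ _)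
      map_zero' := Subtype.ext (map_zero (toBar F₀))
      map_add' := fun x y => Subtype.ext (map_add (toBar F₀) _ _) }
  obtain ⟨p, hp, hpf⟩ := f.2
  have hint : IsIntegral ↥Q.toValuationSubring (toBar F₀ (f : ↥F₀)) := by
    refine ⟨p.map ψ, hp.map ψ, ?_⟩
    rw [Polynomial.eval₂_map]
    have hcomp : (algebraMap ↥Q.toValuationSubring (FBar F₀)).comp ψ =
        (toBar F₀).comp (algebraMap ↥(Algebra.adjoin ℚ ({t} : Set ↥F₀)) ↥F₀) := by
      ext x
      rfl
    rw [hcomp, ← Polynomial.hom_eval₂, hpf, map_zero]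
  obtain ⟨z, hz⟩ := IsIntegrallyClosed.isIntegral_iff.mp hint
  rw [← hz]
  exact Fermat.Agent.H23.ord_nonneg_of_mem Q z.2

/-! ### Existence -/

/-- **MW-E-D-EX.** -/
theorem idealDivisorExists : IdealDivisorExistsStatement := by
  intro F₀ t P hT I hI
  classical
  have hRR := Fermat.Agent.H58.rrHyp_charZero QQbar (FBar F₀) (toBar F₀ t) hT.trans_bar
    hT.fin_bar
  obtain ⟨f₀, hf₀I, hf₀⟩ : ∃ f₀ ∈ I, f₀ ≠ 0 := Submodule.exists_mem_ne_zero_of_ne_bot hI
  obtain ⟨A, hAdef⟩ : ∃ A : Place QQbar (FBar F₀) → Set ℕ, A = fun Q =>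
      {n : ℕ | ∃ f ∈ I, f ≠ 0 ∧ Q.ord (toBar F₀ (f : ↥F₀)) = (n : ℤ)} := ⟨_, rfl⟩
  have hA : ∀ Q, Q ≠ P → ∀ f ∈ I, f ≠ 0 → (Q.ord (toBar F₀ (f : ↥F₀))).toNat ∈ A Q := by
    intro Q hQ f hf hf0
    rw [hAdef]
    refine ⟨f, hf, hf0, ?_⟩
    rw [Int.toNat_of_nonneg (mwed_regular F₀ t Q (hT.reg Q hQ) f)]
  obtain ⟨d, hd⟩ : ∃ d : Place QQbar (FBar F₀) → ℤ,
      d = fun Q => if Q = P then 0 else ((sInf (A Q) : ℕ) : ℤ) := ⟨_, rfl⟩
  have hdQ : ∀ Q, Q ≠ P → d Q = ((sInf (A Q) : ℕ) : ℤ) := by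
    intro Q hQ
    rw [hd]
    exact if_neg hQ
  have hfin : (Function.support d).Finite := by
    refine (Fermat.Agent.H58.rr_finite_ord_ne_zero QQbar (FBar F₀) (toBar F₀ t) hT.trans_bar
      hT.fin_bar (toBar F₀ (f₀ : ↥F₀))).subset ?_
    intro Q hQ
    rw [Function.mem_support] at hQ
    by_cases hQP : Q = P
    · exfalso
      apply hQ
      rw [hd]
      exact if_pos hQP
    · show Q.ord (toBar F₀ (f₀ : ↥F₀)) ≠ 0
      intro h0
      apply hQ
      rw [hdQ Q hQP]
      have h1 := Nat.sInf_le (hA Q hQP f₀ hf₀I hf₀)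
      rw [h0] at h1
      have h2 : sInf (A Q) = 0 := Nat.le_zero.mp h1
      rw [h2]
      rfl
  obtain ⟨D₀, hD₀⟩ : ∃ D₀ : Divisor QQbar (FBar F₀), ∀ Q, D₀ Q = d Q :=
    ⟨Finsupp.ofSupportFinite d hfin, fun Q => rfl⟩
  refine ⟨D₀ - (Divisor.degree D₀) • Finsupp.single P 1, ?_, ?_⟩
  · rw [map_sub, map_zsmul, Divisor.degree_single, hRR.deg_one P]
    simp
  · intro Q hQ
    have hDQ : (D₀ - (Divisor.degree D₀) • Finsupp.single P (1 : ℤ)) Q =
        ((sInf (A Q) : ℕ) : ℤ) := by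
      rw [Finsupp.sub_apply, Finsupp.smul_apply, Finsupp.single_eq_of_ne hQ,
        smul_zero, sub_zero, hD₀, hdQ Q hQ]
    rw [hDQ]
    constructor
    · intro f hf hf0
      have h1 := Nat.sInf_le (hA Q hQ f hf hf0)
      have h0 := mwed_regular F₀ t Q (hT.reg Q hQ) f
      omega
    · have hne : (A Q).Nonempty := ⟨_, hA Q hQ f₀ hf₀I hf₀⟩
      have hmem := Nat.sInf_mem hne
      rw [hAdef] at hmem
      obtain ⟨f, hf, hf0, h⟩ := hmem
      refine ⟨f, hf, hf0, ?_⟩
      rw [h, hAdef]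

/-! ### Uniqueness -/

/-- **MW-E-D-UNIQ.** -/
theorem idealDivisorUnique : IdealDivisorUniqueStatement := by
  intro F₀ t P hT I D D' hD hD'
  have hRR := Fermat.Agent.H58.rrHyp_charZero QQbar (FBar F₀) (toBar F₀ t) hT.trans_bar
    hT.fin_bar
  have hoff : ∀ Q, Q ≠ P → D Q = D' Q := by
    intro Q hQ
    obtain ⟨h1, f, hf, hf0, h2⟩ := hD.2 Q hQ
    obtain ⟨h1', f', hf', hf0', h2'⟩ := hD'.2 Q hQ
    apply le_antisymm
    · rw [← h2']
      exact h1 f' hf' hf0'
    · rw [← h2]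
      exact h1' f hf hf0
  have hdiff : D - D' = (D P - D' P) • Finsupp.single P (1 : ℤ) := by
    ext Q
    rw [Finsupp.sub_apply, Finsupp.smul_apply]
    by_cases hQ : Q = P
    · rw [hQ, Finsupp.single_eq_same, smul_eq_mul, mul_one]
    · rw [hoff Q hQ, Finsupp.single_eq_of_ne hQ, smul_zero, sub_self]
  have hdeg : Divisor.degree (D - D') = 0 := by rw [map_sub, hD.1, hD'.1, sub_zero]
  rw [hdiff, map_zsmul, Divisor.degree_single, hRR.deg_one P] at hdeg
  have hP : D P = D' P := by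
    simp only [Nat.cast_one, mul_one, smul_eq_mul] at hdeg
    omega
  ext Q
  by_cases hQ : Q = P
  · rw [hQ, hP]
  · exact hoff Q hQ

/-! ### Products -/

/-- **MW-E-D-MUL.** -/
theorem idealDivisorMul : IdealDivisorMulStatement := by
  intro F₀ t P hT I J D E hD hE
  refine ⟨by rw [map_add, hD.1, hE.1, add_zero], fun Q hQ => ?_⟩
  obtain ⟨h1, a, ha, ha0, h2⟩ := hD.2 Q hQ
  obtain ⟨h1', b, hb, hb0, h2'⟩ := hE.2 Q hQ
  have hcoe0 : ∀ x : RatRing F₀ t, x ≠ 0 → toBar F₀ (x : ↥F₀) ≠ 0 := by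
    intro x hx
    apply mwed_toBar_ne_zero
    intro h
    exact hx (Subtype.ext h)
  have hmul : ∀ x y : RatRing F₀ t, toBar F₀ ((x * y : RatRing F₀ t) : ↥F₀) =
      toBar F₀ (x : ↥F₀) * toBar F₀ (y : ↥F₀) := by
    intro x y
    rw [← map_mul]
    rfl
  have hadd : ∀ x y : RatRing F₀ t, toBar F₀ ((x + y : RatRing F₀ t) : ↥F₀) =
      toBar F₀ (x : ↥F₀) + toBar F₀ (y : ↥F₀) := by
    intro x y
    rw [← map_add]
    rfl
  rw [Finsupp.add_apply]
  constructor
  · have key : ∀ f ∈ I * J, f = 0 ∨ D Q + E Q ≤ Q.ord (toBar F₀ (f : ↥F₀)) := by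
      intro f hf
      refine Submodule.mul_induction_on hf ?_ ?_
      · intro x hx y hy
        by_cases hx0 : x = 0
        · left
          rw [hx0, zero_mul]
        by_cases hy0 : y = 0
        · left
          rw [hy0, mul_zero]
        right
        rw [hmul, Q.ord_mul (hcoe0 x hx0) (hcoe0 y hy0)]
        exact add_le_add (h1 x hx hx0) (h1' y hy hy0)
      · intro x y hx hy
        rcases hx with rfl | hx
        · rw [zero_add]
          exact hy
        rcases hy with rfl | hy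
        · rw [add_zero]
          exact Or.inr hx
        by_cases hxy : x + y = 0
        · exact Or.inl hxy
        right
        rw [hadd]
        refine Fermat.Agent.H23.ord_add_ge Q ?_ _ (Or.inr hx) (Or.inr hy)
        rw [← hadd]
        exact hcoe0 _ hxy
    intro f hf hf0
    exact (key f hf).resolve_left hf0
  · refine ⟨a * b, Ideal.mul_mem_mul ha hb, mul_ne_zero ha0 hb0, ?_⟩
    rw [hmul, Q.ord_mul (hcoe0 a ha0) (hcoe0 b hb0), h2, h2']

/-! ### Galois invariance -/

theorem mwed_coeffMap_eq_zero {R S : Type*} [CommRing R] [CommRing S] (f : R →+* S)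
    (hf : Function.Injective f) (x : LaurentSeries R) (h : coeffMap f x = 0) : x = 0 := by
  ext k
  apply hf
  have := congrArg (fun z => HahnSeries.coeff z k) h
  simpa using this

theorem mwed_order_coeffMap {R S : Type*} [CommRing R] [CommRing S] (f : R →+* S)
    (hf : Function.Injective f) (x : LaurentSeries R) :
    (coeffMap f x).order = x.order := by
  rcases eq_or_ne x 0 with rfl | hx
  · rw [map_zero, HahnSeries.order_zero, HahnSeries.order_zero]
  have hx' : coeffMap f x ≠ 0 := fun h => hx (mwed_coeffMap_eq_zero f hf x h)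
  apply le_antisymm
  · apply HahnSeries.order_le_of_coeff_ne_zero
    rw [coeffMap_coeff]
    intro h
    exact hx (HahnSeries.coeff_order_eq_zero.mp (hf (by rw [h, map_zero])))
  · apply HahnSeries.order_le_of_coeff_ne_zero
    intro h
    apply hx'
    apply HahnSeries.coeff_order_eq_zero.mp
    rw [coeffMap_coeff, h, map_zero]

/-- The elements of `F₀` are Galois-fixed. -/
theorem mwed_smul_toBar (σ : GalQ) (f : ↥F₀) :
    arithmeticGalois F₀ σ • toBar F₀ f = toBar F₀ f :=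
  Subtype.ext (coeffMap_coeffEmb σ (f : LaurentSeries ℚ))

variable {F₀ t}

/-- The Galois action preserves the order at `P`. -/
theorem mwed_ord_P_smul {P : Place QQbar (FBar F₀)} (hT : TData F₀ t P) (σ : GalQ)
    (f : FBar F₀) : P.ord (arithmeticGalois F₀ σ • f) = P.ord f := by
  by_cases hf0 : f = 0
  · rw [hf0, smul_zero]
  have hgf0 : arithmeticGalois F₀ σ • f ≠ 0 := by
    intro h
    apply hf0
    have := congrArg (fun x => (arithmeticGalois F₀ σ)⁻¹ • x) h
    simpa using this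
  rw [hT.isInf _ hgf0, hT.isInf f hf0]
  exact mwed_order_coeffMap (σ : QQbar →+* QQbar) σ.injective (f : LaurentSeries QQbar)

/-- The place `P` is Galois-fixed. -/
theorem mwed_smul_P {P : Place QQbar (FBar F₀)} (hT : TData F₀ t P) (σ : GalQ) :
    arithmeticGalois F₀ σ • P = P := by
  apply Fermat.Agent.H23.place_ext_of_ord
  intro f hf
  have h1 : (arithmeticGalois F₀ σ • P).ord f = P.ord ((arithmeticGalois F₀ σ)⁻¹ • f) := by
    have := SemilinearAut.ord_smul (arithmeticGalois F₀ σ) P ((arithmeticGalois F₀ σ)⁻¹ • f)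
    rwa [smul_inv_smul] at this
  rw [h1, ← map_inv, mwed_ord_P_smul hT] at hf
  exact hf

/-- **MW-E-D-GAL.** -/
theorem idealDivisorGalois : IdealDivisorGaloisStatement := by
  intro F₀ t P hT I D hD σ
  have hP : (arithmeticGalois F₀ σ)⁻¹ • P = P := by
    rw [← map_inv]
    exact mwed_smul_P hT σ⁻¹
  ext Q
  rw [SemilinearAut.divisor_smul_apply]
  by_cases hQ : Q = P
  · rw [hQ, hP]
  · have hQ' : (arithmeticGalois F₀ σ)⁻¹ • Q ≠ P := by
      intro h
      apply hQ
      rw [← hP] at h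
      exact MulAction.injective _ h
    obtain ⟨h1, f, hf, hf0, h2⟩ := hD.2 Q hQ
    obtain ⟨h1', f', hf', hf0', h2'⟩ := hD.2 _ hQ'
    have hord : ∀ f : ↥F₀, ((arithmeticGalois F₀ σ)⁻¹ • Q).ord (toBar F₀ f) =
        Q.ord (toBar F₀ f) := by
      intro f
      have := SemilinearAut.ord_smul (arithmeticGalois F₀ σ)⁻¹ Q (toBar F₀ f)
      rwa [← map_inv, mwed_smul_toBar] at this
    apply le_antisymm
    · rw [← h2, ← hord]
      exact h1' f hf hf0
    · rw [← h2', hord]
      exact h1 f' hf' hf0'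

end Fermat.Agent.H65.MWE
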